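import Fermat.Agent.L.Defs
import Mathlib.RingTheory.Localization.Away.Basic
import Mathlib.LinearAlgebra.Matrix.SpecialLinearGroup

/-!
# Cluster L, work package IHARA: the ambient group `SL₂(ℤ[1/q])` and its subgroups

Architect: helper41.  `Zq q = ℤ[1/q]`, `Gq q = SL₂(ℤ[1/q])`, `congr q M = G(M)`,
`elem q M = E(M)` (normal closure in `Gq q` of the `u(M t)`), `Delta N q = Γ₀(N)[1/q]`,
`iota, iotaD : Γ₀(N) → Delta N q` (`γ ↦ γ` and `γ ↦ δ⁻¹ γ δ = [a, b/q; q c, d]`, `δ = diag(q,1)`).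
-/

set_option autoImplicit false

noncomputable section

namespace Fermat.Agent.LIh

open CongruenceSubgroup Matrix
open scoped MatrixGroups

/-- The ring `ℤ[1/q]`. -/
abbrev Zq (q : ℕ) : Type := Localization.Away (q : ℤ)

/-- The group `SL₂(ℤ[1/q])`. -/
abbrev Gq (q : ℕ) : Type := SL(2, Zq q)

/-- `1/q ∈ ℤ[1/q]`. -/
def invq (q : ℕ) : Zq q := IsLocalization.Away.invSelf (q : ℤ)

theorem q_mul_invq (q : ℕ) : (q : Zq q) * invq q = 1 := by
  have h := IsLocalization.Away.mul_invSelf (S := Zq q) (q : ℤ)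
  simpa [invq] using h

theorem invq_mul_q (q : ℕ) : invq q * (q : Zq q) = 1 := by
  rw [mul_comm]; exact q_mul_invq q

/-- The upper unipotent `u(t) = [1, t; 0, 1]`. -/
def upper (q : ℕ) (t : Zq q) : Gq q := ⟨!![1, t; 0, 1], by simp [Matrix.det_fin_two_of]⟩

/-- The lower unipotent `l(t) = [1, 0; t, 1]`. -/
def lower (q : ℕ) (t : Zq q) : Gq q := ⟨!![1, 0; t, 1], by simp [Matrix.det_fin_two_of]⟩

/-- Reduction modulo `M` on `SL₂(ℤ[1/q])`. -/
def redM (q M : ℕ) : Gq q →* SL(2, Zq q ⧸ Ideal.span {(M : Zq q)}) :=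
  Matrix.SpecialLinearGroup.map (Ideal.Quotient.mk (Ideal.span {(M : Zq q)}))

/-- The principal congruence subgroup `G(M) = ker (SL₂(ℤ[1/q]) → SL₂(ℤ[1/q]/M))`. -/
def congr (q M : ℕ) : Subgroup (Gq q) := (redM q M).ker

instance congr_normal (q M : ℕ) : (congr q M).Normal := MonoidHom.normal_ker _

/-- `E(M)`: the normal closure in `SL₂(ℤ[1/q])` of the elementary matrices `u(M t)`. -/
def elem (q M : ℕ) : Subgroup (Gq q) :=
  Subgroup.normalClosure {g | ∃ t : Zq q, g = upper q ((M : Zq q) * t)}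

instance elem_normal (q M : ℕ) : (elem q M).Normal := Subgroup.normalClosure_normal

/-- `Γ₀(N)[1/q]`: the matrices of `SL₂(ℤ[1/q])` with lower left entry in `N ℤ[1/q]`. -/
def Delta (N q : ℕ) : Subgroup (Gq q) where
  carrier := {g | (N : Zq q) ∣ g 1 0}
  one_mem' := by simp
  mul_mem' := by
    intro g h hg hh
    change (N : Zq q) ∣ g 1 0 at hg
    change (N : Zq q) ∣ h 1 0 at hh
    change (N : Zq q) ∣ (g * h) 1 0
    rw [Matrix.SpecialLinearGroup.coe_mul, Matrix.mul_apply, Fin.sum_univ_two]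
    exact dvd_add (Dvd.dvd.mul_right hg _) (Dvd.dvd.mul_left hh _)
  inv_mem' := by
    intro g hg
    change (N : Zq q) ∣ g 1 0 at hg
    change (N : Zq q) ∣ (g⁻¹) 1 0
    rw [Matrix.SpecialLinearGroup.coe_inv, Matrix.adjugate_fin_two]
    have h1 : (N : Zq q) ∣ -(g 1 0) := (dvd_neg).2 hg
    simpa using h1

theorem mem_Delta {N q : ℕ} {g : Gq q} : g ∈ Delta N q ↔ (N : Zq q) ∣ g 1 0 := Iff.rfl

theorem mem_congr {q M : ℕ} {g : Gq q} :
    g ∈ congr q M ↔ ∀ i j, (M : Zq q) ∣ (g i j - (1 : Matrix (Fin 2) (Fin 2) (Zq q)) i j) := by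
  rw [congr, MonoidHom.mem_ker, redM]
  constructor
  · intro h i j
    have h1 := congrArg (fun x : SL(2, Zq q ⧸ Ideal.span {(M : Zq q)}) => x i j) h
    simp only [Matrix.SpecialLinearGroup.map_apply_coe, RingHom.mapMatrix_apply,
      Matrix.map_apply, Matrix.SpecialLinearGroup.coe_one] at h1
    rw [← Ideal.mem_span_singleton, ← Ideal.Quotient.eq]
    rw [h1]
    by_cases hij : i = j
    · subst hij; simp
    · simp [Matrix.one_apply_ne hij]
  · intro h
    ext i j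
    simp only [Matrix.SpecialLinearGroup.map_apply_coe, RingHom.mapMatrix_apply,
      Matrix.map_apply, Matrix.SpecialLinearGroup.coe_one]
    have h1 := h i j
    rw [← Ideal.mem_span_singleton, ← Ideal.Quotient.eq] at h1
    rw [h1]
    by_cases hij : i = j
    · subst hij; simp
    · simp [Matrix.one_apply_ne hij]

/-- `SL₂(ℤ) → SL₂(ℤ[1/q])`. -/
def iotaZ (q : ℕ) : SL(2, ℤ) →* Gq q := Matrix.SpecialLinearGroup.map (algebraMap ℤ (Zq q))

@[simp] theorem iotaZ_apply (q : ℕ) (γ : SL(2, ℤ)) (i j : Fin 2) :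
    (iotaZ q γ) i j = ((γ i j : ℤ) : Zq q) := by
  simp [iotaZ]

/-- `Γ₀(N) → Γ₀(N)[1/q]`, `γ ↦ γ`. -/
def iota (N q : ℕ) : Gamma0 N →* Delta N q where
  toFun γ := ⟨iotaZ q γ, by
    rw [mem_Delta, iotaZ_apply]
    obtain ⟨k, hk⟩ := L.dvd_of_mem_Gamma0 γ.2
    exact ⟨(k : Zq q), by rw [hk]; push_cast; ring⟩⟩
  map_one' := by ext1; simp
  map_mul' γ γ' := by ext1; simp

@[simp] theorem iota_coe (N q : ℕ) (γ : Gamma0 N) : ((iota N q γ : Delta N q) : Gq q) =
    iotaZ q γ := rfl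

/-- The matrix `δ⁻¹ γ δ = [a, b/q; q c, d]`, `δ = diag(q, 1)`. -/
def conjInvMat (q : ℕ) (g : Matrix (Fin 2) (Fin 2) (Zq q)) : Matrix (Fin 2) (Fin 2) (Zq q) :=
  !![g 0 0, g 0 1 * invq q; (q : Zq q) * g 1 0, g 1 1]

theorem conjInvMat_mul (q : ℕ) (g h : Matrix (Fin 2) (Fin 2) (Zq q)) :
    conjInvMat q (g * h) = conjInvMat q g * conjInvMat q h := by
  have h1 := q_mul_invq q
  have h2 := invq_mul_q q
  ext i j
  fin_cases i <;> fin_cases j
  · simp only [conjInvMat, Matrix.mul_apply, Fin.sum_univ_two, Fin.zero_eta, Fin.isValue,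
      Matrix.of_apply, Matrix.cons_val', Matrix.cons_val_zero, Matrix.cons_val_fin_one,
      Matrix.cons_val_one]
    linear_combination (- g 0 1 * h 1 0) * h2
  · simp only [conjInvMat, Matrix.mul_apply, Fin.sum_univ_two, Fin.zero_eta, Fin.isValue,
      Fin.mk_one, Matrix.of_apply, Matrix.cons_val', Matrix.cons_val_zero,
      Matrix.cons_val_fin_one, Matrix.cons_val_one]
    ring
  · simp only [conjInvMat, Matrix.mul_apply, Fin.sum_univ_two, Fin.zero_eta, Fin.isValue,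
      Fin.mk_one, Matrix.of_apply, Matrix.cons_val', Matrix.cons_val_zero,
      Matrix.cons_val_fin_one, Matrix.cons_val_one]
    ring
  · simp only [conjInvMat, Matrix.mul_apply, Fin.sum_univ_two, Fin.isValue,
      Fin.mk_one, Matrix.of_apply, Matrix.cons_val', Matrix.cons_val_zero,
      Matrix.cons_val_fin_one, Matrix.cons_val_one]
    linear_combination (- g 1 0 * h 0 1) * h1

theorem conjInvMat_one (q : ℕ) : conjInvMat q (1 : Matrix (Fin 2) (Fin 2) (Zq q)) = 1 := by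
  ext i j
  fin_cases i <;> fin_cases j <;> simp [conjInvMat]

theorem det_conjInvMat (q : ℕ) (g : Matrix (Fin 2) (Fin 2) (Zq q)) :
    (conjInvMat q g).det = g.det := by
  have h2 := invq_mul_q q
  rw [Matrix.det_fin_two, Matrix.det_fin_two]
  simp only [conjInvMat, Fin.isValue, Matrix.of_apply, Matrix.cons_val', Matrix.cons_val_zero,
    Matrix.cons_val_fin_one, Matrix.cons_val_one]
  linear_combination (- g 0 1 * g 1 0) * h2

/-- Conjugation by `δ⁻¹`, `δ = diag(q, 1)`, on `SL₂(ℤ[1/q])`: `[a, b; c, d] ↦ [a, b/q; q c, d]`. -/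
def conjInv (q : ℕ) : Gq q →* Gq q where
  toFun g := ⟨conjInvMat q g, by rw [det_conjInvMat]; exact g.2⟩
  map_one' := by ext1; simp [conjInvMat_one]
  map_mul' g h := by
    apply Subtype.ext
    change conjInvMat q ((g * h : Gq q) : Matrix (Fin 2) (Fin 2) (Zq q)) = _
    rw [Matrix.SpecialLinearGroup.coe_mul, conjInvMat_mul]
    rfl

@[simp] theorem conjInv_coe (q : ℕ) (g : Gq q) :
    ((conjInv q g : Gq q) : Matrix (Fin 2) (Fin 2) (Zq q)) = conjInvMat q g := rfl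

/-- `Γ₀(N) → Γ₀(N)[1/q]`, `γ ↦ δ⁻¹ γ δ = [a, b/q; q c, d]`. -/
def iotaD (N q : ℕ) : Gamma0 N →* Delta N q where
  toFun γ := ⟨conjInv q (iotaZ q γ), by
    rw [mem_Delta, conjInv_coe]
    obtain ⟨k, hk⟩ := L.dvd_of_mem_Gamma0 γ.2
    refine ⟨(q : Zq q) * (k : Zq q), ?_⟩
    simp only [conjInvMat, Fin.isValue, Matrix.of_apply, Matrix.cons_val', Matrix.cons_val_zero,
      Matrix.cons_val_fin_one, Matrix.cons_val_one, iotaZ_apply]
    rw [hk]; push_cast; ring⟩
  map_one' := by ext1; simp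
  map_mul' γ γ' := by ext1; simp

@[simp] theorem iotaD_coe (N q : ℕ) (γ : Gamma0 N) : ((iotaD N q γ : Delta N q) : Gq q) =
    conjInv q (iotaZ q γ) := rfl

end Fermat.Agent.LIh
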