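import Fermat.Agent.L.Ihara.Defs
import Fermat.Agent.L.Interfaces

/-!
# Cluster L, work package IHARA: interface propositions

Architect: helper41.  Route (all checked on paper by lead, helper45, helper64):

* (A1) `GlueStatement`: a pair `(c₁, c₂)` in the kernel of `α` glues to a homomorphism `Φ` on
  `Delta N q = Γ₀(N)[1/q]` (amalgam, ping-pong).
* (B) `CentralStatement q p M`: every `Φ : G(M) → 𝔽_p` killing `E(M)` is invariant under
  conjugation by `SL₂(ℤ[1/q])` (unit trick).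
* (D') `CSPStatement q p M`: every `Φ : G(M) → 𝔽_p` killing `E(M)` is zero
  (from (B) at the levels `M` and `M l`: Hecke trick `diag(l, 1)` + transfer + Dirichlet).
* (A3) (helper83, `L/Ihara/Congruence.lean`): a homomorphism on `Γ₀(N)` which is trivial on
  `Γ₀(N) ∩ Γ(M₀)` satisfies `T_ℓ c = (ℓ + 1) c` for `ℓ ≡ 1 mod M₀`.
* Assembly: `L.IharaStatement N q p` with `M₀ = p N`: the glued `Φ` kills `E(p N)` for free
  (`g u(p N t) g⁻¹ = (g u(N t) g⁻¹) ^ p`), hence vanishes on `G(p N)` by (D').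
-/

set_option autoImplicit false

noncomputable section

namespace Fermat.Agent.LIh

open CongruenceSubgroup ModularCurve.Period Matrix
open scoped MatrixGroups

/-- **(A1)** glueing along the amalgam `Γ₀(N)[1/q] = Γ₀(N) *_{Γ₀(N q)} δ⁻¹ Γ₀(N) δ`. -/
def GlueStatement (N q : ℕ) [NeZero q] : Prop :=
  q.Prime → ¬ q ∣ N → 0 < N →
  ∀ (A : Type) [AddCommGroup A] (c₁ c₂ : Additive (Gamma0 N) →+ A),
    L.resAll N q A c₁ + L.resAllD N q A c₂ = 0 →
    ∃ Φ : Additive (Delta N q) →+ A,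
      (∀ γ : Gamma0 N, Φ (Additive.ofMul (iota N q γ)) = c₁ (Additive.ofMul γ)) ∧
      (∀ γ : Gamma0 N, Φ (Additive.ofMul (iotaD N q γ)) = - c₂ (Additive.ofMul γ))

/-- **(B)** centrality modulo `p` of `G(M)/E(M)` in `SL₂(ℤ[1/q])/E(M)`. -/
def CentralStatement (q p M : ℕ) : Prop :=
  q.Prime → p.Prime → q ≠ p → 0 < M → Nat.Coprime M q →
  ∀ Φ : Additive (congr q M) →+ ZMod p,
    (∀ x : congr q M, (x : Gq q) ∈ elem q M → Φ (Additive.ofMul x) = 0) →
    ∀ (g : Gq q) (x : congr q M),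
      Φ (Additive.ofMul ⟨g * x * g⁻¹, (congr_normal q M).conj_mem x x.2 g⟩) =
        Φ (Additive.ofMul x)

/-- **(D')** the congruence subgroup property of `SL₂(ℤ[1/q])` for `𝔽_p`-characters. -/
def CSPStatement (q p M : ℕ) : Prop :=
  q.Prime → p.Prime → p ≠ 2 → q ≠ p → 0 < M → Nat.Coprime M q →
  ∀ Φ : Additive (congr q M) →+ ZMod p,
    (∀ x : congr q M, (x : Gq q) ∈ elem q M → Φ (Additive.ofMul x) = 0) → Φ = 0

end Fermat.Agent.LIh
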