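/-
Cluster L (S41, level raising), WP IHARA, last step (A3).  Owner: helper83.

Congruence characters are Eisenstein: if `c : Γ₀(N) → A` is a homomorphism which is trivial on
`Γ₀(N) ∩ Γ(M₀)` and `ℓ ∤ N` is a prime with `ℓ ≡ 1 mod M₀`, then `T_ℓ c = (ℓ + 1) c`.
(No parabolicity assumption on `c`.)
-/
import Fermat.Agent.L.Degen.Reps

set_option autoImplicit false

noncomputable section

namespace Fermat.Agent.LIhara

open CongruenceSubgroup Matrix.SpecialLinearGroup ModularCurve.Period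
open Fermat.Agent.F3EC Fermat.Agent.L Fermat.Agent.LDeg
open scoped MatrixGroups
open P2MW.S_ModularForm_heckeT_slash_eq_self_of_mem_Gamma0.ModularForm.HeckeSlashInvariance

variable {N ℓ M₀ : ℕ} [Fact ℓ.Prime]

/-- The translation `[1, k; 0, 1]` attached to `x = k ∈ ℙ¹(𝔽_ℓ)` (and `1` for `x = ∞`). -/
def translOf (N ℓ : ℕ) (x : OnePoint (ZMod ℓ)) : Gamma0 N :=
  x.elim 1 (fun k => translG N (k.val : ℤ))

/-- Reduction of integer matrices modulo `M₀`. -/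
abbrev redM (M₀ : ℕ) : Matrix (Fin 2) (Fin 2) ℤ →+* Matrix (Fin 2) (Fin 2) (ZMod M₀) :=
  (Int.castRingHom (ZMod M₀)).mapMatrix

omit [Fact ℓ.Prime] in
theorem redM_heckeInt (hℓ1 : ((ℓ : ℕ) : ZMod M₀) = 1) (x : OnePoint (ZMod ℓ)) :
    redM M₀ (heckeInt ℓ x) =
      redM M₀ (((translOf N ℓ x : Gamma0 N) : SL(2, ℤ)) : Matrix (Fin 2) (Fin 2) ℤ) := by
  induction x using OnePoint.rec with
  | infty =>
    show redM M₀ (heckeInt ℓ OnePoint.infty) =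
      redM M₀ (((1 : Gamma0 N) : SL(2, ℤ)) : Matrix (Fin 2) (Fin 2) ℤ)
    ext i j
    fin_cases i <;> fin_cases j <;> simp [hℓ1]
  | coe k =>
    show redM M₀ (heckeInt ℓ (k : OnePoint (ZMod ℓ))) =
      redM M₀ (((translG N (k.val : ℤ) : Gamma0 N) : SL(2, ℤ)) : Matrix (Fin 2) (Fin 2) ℤ)
    rw [coe_translG]
    ext i j
    fin_cases i <;> fin_cases j <;> simp [hℓ1, -ZMod.natCast_val]

theorem heckeInt_mul_eq (hℓN : ¬ ℓ ∣ N) (γ : Gamma0 N) (x : OnePoint (ZMod ℓ)) :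
    heckeInt ℓ x * ((γ : SL(2, ℤ)) : Matrix (Fin 2) (Fin 2) ℤ) =
      (((heckeCoset hℓN γ x : Gamma0 N) : SL(2, ℤ)) : Matrix (Fin 2) (Fin 2) ℤ) *
        heckeInt ℓ (redMatrix ℓ (γ : SL(2, ℤ)) • x) := by
  have hℓ : ℓ ≠ 0 := (Fact.out : ℓ.Prime).ne_zero
  have h := heckeCoset_spec hℓN γ x
  rw [heckeRep_eq_intGL hℓ, heckeRep_eq_intGL hℓ, mapGL_eq_intGL, mapGL_eq_intGL,
    intGL_mul_eq_mul_iff] at h
  exact h

theorem redM_SL_mul_adjugate (t : SL(2, ℤ)) :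
    redM M₀ (t : Matrix (Fin 2) (Fin 2) ℤ) *
      redM M₀ ((t⁻¹ : SL(2, ℤ)) : Matrix (Fin 2) (Fin 2) ℤ) = 1 := by
  rw [← map_mul, ← Matrix.SpecialLinearGroup.coe_mul, mul_inv_cancel,
    Matrix.SpecialLinearGroup.coe_one, map_one]

/-- The Hecke coset element `γ_x` is congruent to `t_x γ t_{x'}⁻¹` modulo `M₀`. -/
theorem heckeCoset_mem_Gamma (hℓN : ¬ ℓ ∣ N) (hℓ1 : ((ℓ : ℕ) : ZMod M₀) = 1) (γ : Gamma0 N)
    (x : OnePoint (ZMod ℓ)) :
    (((translOf N ℓ x * γ * (translOf N ℓ (redMatrix ℓ (γ : SL(2, ℤ)) • x))⁻¹)⁻¹ *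
      heckeCoset hℓN γ x : Gamma0 N) : SL(2, ℤ)) ∈ Gamma M₀ := by
  set x' := redMatrix ℓ (γ : SL(2, ℤ)) • x with hx'
  set B := heckeCoset hℓN γ x with hB
  set tx := translOf N ℓ x with htx
  set tx' := translOf N ℓ x' with htx'
  set Aelt : Gamma0 N := tx * γ * tx'⁻¹ with hA
  -- `A * T_{x'} = T_x * γ`
  have h3 : ((Aelt : SL(2, ℤ)) : Matrix (Fin 2) (Fin 2) ℤ) *
      ((tx' : SL(2, ℤ)) : Matrix (Fin 2) (Fin 2) ℤ) =
      ((tx : SL(2, ℤ)) : Matrix (Fin 2) (Fin 2) ℤ) *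
        ((γ : SL(2, ℤ)) : Matrix (Fin 2) (Fin 2) ℤ) := by
    rw [← coe_Gamma0_mul, ← coe_Gamma0_mul, hA, inv_mul_cancel_right]
  have h2 := heckeInt_mul_eq hℓN γ x
  have key : redM M₀ ((Aelt : SL(2, ℤ)) : Matrix (Fin 2) (Fin 2) ℤ) =
      redM M₀ ((B : SL(2, ℤ)) : Matrix (Fin 2) (Fin 2) ℤ) := by
    have e1 : redM M₀ ((Aelt : SL(2, ℤ)) : Matrix (Fin 2) (Fin 2) ℤ) *
        redM M₀ ((tx' : SL(2, ℤ)) : Matrix (Fin 2) (Fin 2) ℤ) =
        redM M₀ ((B : SL(2, ℤ)) : Matrix (Fin 2) (Fin 2) ℤ) *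
          redM M₀ ((tx' : SL(2, ℤ)) : Matrix (Fin 2) (Fin 2) ℤ) := by
      rw [← map_mul, h3, map_mul, ← redM_heckeInt hℓ1 x, ← map_mul, h2, map_mul,
        redM_heckeInt (N := N) hℓ1 x']
    have e2 := congrArg (· * redM M₀ (((tx' : SL(2, ℤ))⁻¹ : SL(2, ℤ)) :
      Matrix (Fin 2) (Fin 2) ℤ)) e1
    simp only [mul_assoc, redM_SL_mul_adjugate, mul_one] at e2
    exact e2
  rw [Gamma_mem']
  have hA' : Matrix.SpecialLinearGroup.map (Int.castRingHom (ZMod M₀)) (Aelt : SL(2, ℤ)) =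
      Matrix.SpecialLinearGroup.map (Int.castRingHom (ZMod M₀)) (B : SL(2, ℤ)) := by
    apply Subtype.ext
    exact key
  rw [Subgroup.coe_mul, Subgroup.coe_inv, map_mul, map_inv, hA', inv_mul_cancel]

/-- **IHARA, last step.**  A homomorphism `c : Γ₀(N) → A` which is trivial on `Γ₀(N) ∩ Γ(M₀)`
satisfies `T_ℓ c = (ℓ + 1) c` for every prime `ℓ ∤ N`, `ℓ ≡ 1 mod M₀`. -/
theorem heckeHomAll_eq_of_congruence (hℓN : ¬ ℓ ∣ N) (hℓ1 : ℓ ≡ 1 [MOD M₀]) {A : Type*}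
    [AddCommGroup A] (c : Additive (Gamma0 N) →+ A)
    (hc : ∀ γ : Gamma0 N, (γ : SL(2, ℤ)) ∈ Gamma M₀ → c (Additive.ofMul γ) = 0) :
    heckeHomAll hℓN A c = ((ℓ : ℤ) + 1) • c := by
  have hℓ1' : ((ℓ : ℕ) : ZMod M₀) = 1 := by
    have := (ZMod.natCast_eq_natCast_iff ℓ 1 M₀).mpr hℓ1
    simpa using this
  refine AddMonoidHom.ext fun γ => ?_
  obtain ⟨γ, rfl⟩ := Additive.ofMul.surjective γ
  rw [heckeHomAll_apply, AddMonoidHom.smul_apply]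
  have hterm : ∀ x : OnePoint (ZMod ℓ), c (Additive.ofMul (heckeCoset hℓN γ x)) =
      c (Additive.ofMul γ) + (c (Additive.ofMul (translOf N ℓ x)) -
        c (Additive.ofMul (translOf N ℓ (redMatrix ℓ (γ : SL(2, ℤ)) • x)))) := by
    intro x
    have hg := hc _ (heckeCoset_mem_Gamma hℓN hℓ1' γ x)
    rw [ofMul_mul, ofMul_inv, ofMul_mul, ofMul_mul, ofMul_inv, map_add, map_neg, map_add,
      map_add, map_neg] at hg
    have : c (Additive.ofMul (heckeCoset hℓN γ x)) =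
        c (Additive.ofMul (translOf N ℓ x)) + c (Additive.ofMul γ) +
          -c (Additive.ofMul (translOf N ℓ (redMatrix ℓ (γ : SL(2, ℤ)) • x))) := by
      rw [← sub_eq_zero, ← hg]
      abel
    rw [this]
    abel
  have hperm : ∑ x : OnePoint (ZMod ℓ),
      c (Additive.ofMul (translOf N ℓ (redMatrix ℓ (γ : SL(2, ℤ)) • x))) =
      ∑ x : OnePoint (ZMod ℓ), c (Additive.ofMul (translOf N ℓ x)) :=
    Equiv.sum_comp (MulAction.toPerm (redMatrix ℓ (γ : SL(2, ℤ))))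
      (fun x => c (Additive.ofMul (translOf N ℓ x)))
  have hcard : Fintype.card (OnePoint (ZMod ℓ)) = ℓ + 1 := by
    have h1 : Fintype.card (OnePoint (ZMod ℓ)) = Fintype.card (Option (ZMod ℓ)) := rfl
    rw [h1, Fintype.card_option, ZMod.card]
  rw [Finset.sum_congr rfl fun x _ => hterm x, Finset.sum_add_distrib, Finset.sum_sub_distrib,
    hperm, sub_self, add_zero, Finset.sum_const, Finset.card_univ, hcard]
  rw [← natCast_zsmul]
  push_cast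
  rfl

end Fermat.Agent.LIhara
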