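/-
Cluster L (S41, level raising), WP IHARA, assembly (ASM).  Owner: helper83.

`GlueStatement N q` (A1) + `CSPStatement q p (p N)` (D') ⇒ `L.IharaStatement N q p`, `M₀ = p N`.

Proof.  A pair `(c₁, c₂)` in the kernel of `α` glues to `Φ : Γ₀(N)[1/q] → 𝔽_p`.  `Φ` kills
`E(p N)` for free: `g u(p N t) g⁻¹ = (g u(N t) g⁻¹) ^ p` and `g u(N t) g⁻¹ ∈ G(N) ⊆ Γ₀(N)[1/q]`.
By (D') `Φ = 0` on `G(p N)`.  For `γ ∈ Γ₀(N) ∩ Γ(p N)` both `γ` and `δ⁻¹ γ δ` are in `G(p N)`,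
hence `c₁ γ = 0 = c₂ γ`, and (A3) (`heckeHomAll_eq_of_congruence`) applies.
-/
import Fermat.Agent.L.Ihara.Interfaces
import Fermat.Agent.L.Ihara.Congruence

set_option autoImplicit false

noncomputable section

namespace Fermat.Agent.LIhara

open CongruenceSubgroup ModularCurve.Period Matrix
open Fermat.Agent.L
open scoped MatrixGroups

section Basic

variable (q : ℕ)

theorem asm_upper_mul (s t : LIh.Zq q) : LIh.upper q s * LIh.upper q t = LIh.upper q (s + t) := by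
  apply Subtype.ext
  rw [Matrix.SpecialLinearGroup.coe_mul]
  ext i j
  fin_cases i <;> fin_cases j <;>
    simp [LIh.upper, Matrix.mul_apply, Fin.sum_univ_two, add_comm]

theorem asm_upper_zero : LIh.upper q 0 = 1 := by
  apply Subtype.ext
  ext i j
  fin_cases i <;> fin_cases j <;> simp [LIh.upper]

theorem asm_upper_pow (t : LIh.Zq q) (n : ℕ) :
    LIh.upper q t ^ n = LIh.upper q ((n : LIh.Zq q) * t) := by
  induction n with
  | zero => simp [asm_upper_zero]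
  | succ n ih =>
    rw [pow_succ, ih, asm_upper_mul]
    congr 1
    push_cast
    ring

theorem asm_upper_mem_congr (M : ℕ) (t : LIh.Zq q) :
    LIh.upper q ((M : LIh.Zq q) * t) ∈ LIh.congr q M := by
  rw [LIh.mem_congr]
  intro i j
  fin_cases i <;> fin_cases j <;> simp [LIh.upper]

theorem asm_congr_le_Delta {N M : ℕ} (h : N ∣ M) : LIh.congr q M ≤ LIh.Delta N q := by
  intro g hg
  rw [LIh.mem_congr] at hg
  rw [LIh.mem_Delta]
  have h1 := hg 1 0
  simp only [Fin.isValue, ne_eq, one_ne_zero, not_false_eq_true, Matrix.one_apply_ne,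
    sub_zero] at h1
  obtain ⟨k, rfl⟩ := h
  refine dvd_trans ?_ h1
  push_cast
  exact Dvd.intro _ rfl

end Basic

section Kill

variable {N q p : ℕ}

/-- The glued homomorphism kills `E(p N)` for free. -/
theorem asm_kills_elem (hp : p.Prime) (Φ : Additive (LIh.Delta N q) →+ ZMod p) (x : LIh.Gq q)
    (hx : x ∈ LIh.elem q (p * N)) :
    ∃ hx' : x ∈ LIh.Delta N q, Φ (Additive.ofMul ⟨x, hx'⟩) = 0 := by
  have : Fact p.Prime := ⟨hp⟩
  unfold LIh.elem Subgroup.normalClosure at hx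
  induction hx using Subgroup.closure_induction with
  | mem x hx =>
    rw [Group.mem_conjugatesOfSet_iff] at hx
    obtain ⟨a, ⟨t, rfl⟩, hconj⟩ := hx
    rw [isConj_iff] at hconj
    obtain ⟨g, rfl⟩ := hconj
    have hz : g * LIh.upper q ((N : LIh.Zq q) * t) * g⁻¹ ∈ LIh.Delta N q :=
      asm_congr_le_Delta q (dvd_refl N)
        ((LIh.congr_normal q N).conj_mem _ (asm_upper_mem_congr q N t) g)
    have e : g * LIh.upper q (((p * N : ℕ) : LIh.Zq q) * t) * g⁻¹ =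
        (g * LIh.upper q ((N : LIh.Zq q) * t) * g⁻¹) ^ p := by
      rw [conj_pow, asm_upper_pow]
      congr 3
      push_cast
      ring
    have hx' : g * LIh.upper q (((p * N : ℕ) : LIh.Zq q) * t) * g⁻¹ ∈ LIh.Delta N q := by
      rw [e]
      exact pow_mem hz p
    refine ⟨hx', ?_⟩
    have e' : (⟨g * LIh.upper q (((p * N : ℕ) : LIh.Zq q) * t) * g⁻¹, hx'⟩ : LIh.Delta N q) =
        (⟨g * LIh.upper q ((N : LIh.Zq q) * t) * g⁻¹, hz⟩ : LIh.Delta N q) ^ p := by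
      apply Subtype.ext
      rw [Subgroup.coe_pow]
      exact e
    rw [e', ofMul_pow, map_nsmul, nsmul_eq_mul, ZMod.natCast_self, zero_mul]
  | one => exact ⟨one_mem _, map_zero Φ⟩
  | mul x y _ _ ihx ihy =>
    obtain ⟨hx', ex⟩ := ihx
    obtain ⟨hy', ey⟩ := ihy
    refine ⟨mul_mem hx' hy', ?_⟩
    have e : (⟨x * y, mul_mem hx' hy'⟩ : LIh.Delta N q) = ⟨x, hx'⟩ * ⟨y, hy'⟩ := rfl
    rw [e, ofMul_mul, map_add, ex, ey, add_zero]
  | inv x _ ihx =>
    obtain ⟨hx', ex⟩ := ihx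
    refine ⟨inv_mem hx', ?_⟩
    have e : (⟨x⁻¹, inv_mem hx'⟩ : LIh.Delta N q) = (⟨x, hx'⟩ : LIh.Delta N q)⁻¹ := rfl
    rw [e, ofMul_inv, map_neg, ex, neg_zero]

end Kill

section Mem

variable (q : ℕ) {M : ℕ}

theorem asm_dvd_of_mem_Gamma {γ : SL(2, ℤ)} (h : γ ∈ Gamma M) (i j : Fin 2) :
    (M : ℤ) ∣ γ i j - (1 : Matrix (Fin 2) (Fin 2) ℤ) i j := by
  rw [Gamma_mem] at h
  obtain ⟨h00, h01, h10, h11⟩ := h
  rw [← ZMod.intCast_zmod_eq_zero_iff_dvd]
  push_cast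
  fin_cases i <;> fin_cases j
  · simp [h00]
  · simp [h01]
  · simp [h10]
  · simp [h11]

theorem asm_dvd_cast {a : ℤ} (h : (M : ℤ) ∣ a) : (M : LIh.Zq q) ∣ (a : LIh.Zq q) := by
  obtain ⟨k, rfl⟩ := h
  exact ⟨(k : LIh.Zq q), by push_cast; rfl⟩

theorem asm_iotaZ_mem_congr {γ : SL(2, ℤ)} (h : γ ∈ Gamma M) : LIh.iotaZ q γ ∈ LIh.congr q M := by
  rw [LIh.mem_congr]
  intro i j
  have h1 := asm_dvd_cast q (asm_dvd_of_mem_Gamma h i j)
  rw [LIh.iotaZ_apply]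
  have e : ((1 : Matrix (Fin 2) (Fin 2) (LIh.Zq q)) i j) =
      (((1 : Matrix (Fin 2) (Fin 2) ℤ) i j : ℤ) : LIh.Zq q) := by
    fin_cases i <;> fin_cases j <;> simp
  rw [e, ← Int.cast_sub]
  exact h1

theorem asm_conjInv_iotaZ_mem_congr {γ : SL(2, ℤ)} (h : γ ∈ Gamma M) :
    LIh.conjInv q (LIh.iotaZ q γ) ∈ LIh.congr q M := by
  rw [LIh.mem_congr]
  have h00 := asm_dvd_cast q (asm_dvd_of_mem_Gamma h 0 0)
  have h01 := asm_dvd_cast q (asm_dvd_of_mem_Gamma h 0 1)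
  have h10 := asm_dvd_cast q (asm_dvd_of_mem_Gamma h 1 0)
  have h11 := asm_dvd_cast q (asm_dvd_of_mem_Gamma h 1 1)
  simp only [Fin.isValue, Matrix.one_apply_eq, ne_eq, zero_ne_one, not_false_eq_true,
    Matrix.one_apply_ne, one_ne_zero, sub_zero, Int.cast_sub, Int.cast_one] at h00 h01 h10 h11
  intro i j
  fin_cases i <;> fin_cases j
  · simpa [LIh.conjInvMat] using h00
  · have := Dvd.dvd.mul_right h01 (LIh.invq q)
    simpa [LIh.conjInvMat] using this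
  · have := Dvd.dvd.mul_left h10 (q : LIh.Zq q)
    simpa [LIh.conjInvMat] using this
  · simpa [LIh.conjInvMat] using h11

end Mem

/-- **IHARA, assembly.**  (A1) + (D') at the level `p N` give `L.IharaStatement N q p`. -/
theorem iharaStatement_of (N q p : ℕ) [NeZero q] (hGlue : LIh.GlueStatement N q)
    (hCSP : LIh.CSPStatement q p (p * N)) : L.IharaStatement N q p := by
  intro hq hqN hN hp hp2 hqp
  refine ⟨p * N, Nat.mul_pos hp.pos hN, ?_⟩
  intro c₁ c₂ hc ℓ _ hℓN _ _ hℓ1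
  obtain ⟨Φ, hΦ1, hΦ2⟩ := hGlue hq hqN hN (ZMod p) c₁ c₂ hc
  have hcop : Nat.Coprime (p * N) q := by
    apply Nat.Coprime.mul_left
    · exact (Nat.coprime_primes hp hq).mpr (Ne.symm hqp)
    · exact ((Nat.Prime.coprime_iff_not_dvd hq).mpr hqN).symm
  have hle : LIh.congr q (p * N) ≤ LIh.Delta N q := asm_congr_le_Delta q (Dvd.intro_left p rfl)
  have hΦ' : Φ.comp (MonoidHom.toAdditive (Subgroup.inclusion hle)) = 0 :=
    hCSP hq hp hp2 hqp (Nat.mul_pos hp.pos hN) hcop _ (by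
      intro x hx
      obtain ⟨hx', e⟩ := asm_kills_elem hp Φ (x : LIh.Gq q) hx
      exact e)
  have key : ∀ g : LIh.Delta N q, (g : LIh.Gq q) ∈ LIh.congr q (p * N) →
      Φ (Additive.ofMul g) = 0 := by
    intro g hg
    exact DFunLike.congr_fun hΦ' (Additive.ofMul ⟨g, hg⟩)
  have h1 : ∀ γ : Gamma0 N, (γ : SL(2, ℤ)) ∈ Gamma (p * N) → c₁ (Additive.ofMul γ) = 0 := by
    intro γ hγ
    rw [← hΦ1]
    exact key _ (asm_iotaZ_mem_congr q hγ)
  have h2 : ∀ γ : Gamma0 N, (γ : SL(2, ℤ)) ∈ Gamma (p * N) → c₂ (Additive.ofMul γ) = 0 := by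
    intro γ hγ
    have := key (LIh.iotaD N q γ) (asm_conjInv_iotaZ_mem_congr q hγ)
    rw [hΦ2] at this
    exact neg_eq_zero.mp this
  exact ⟨heckeHomAll_eq_of_congruence hℓN hℓ1 c₁ h1, heckeHomAll_eq_of_congruence hℓN hℓ1 c₂ h2⟩

end Fermat.Agent.LIhara
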