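/-
Cluster L / Ihara, work package (B-AR): the arithmetic half of centrality (B) of
`G(M)/E(M)` in `SL₂(ℤ[1/q])/E(M)` (helper73's construction, one application of Dirichlet).

`exists_unit_step`: for `a0` prime to `q M` and `b0` prime to `a0` there are `K`, `b'`, `σ` with
`M ∣ b'`, `b' ≡ b0 mod a0`, `q ^ K - 1 = a0 * b' * σ` and `a0 * σ ≡ 1 mod M`.
-/
import Mathlib

namespace Fermat.Agent.LIhB

/-- Split a positive integer into its `M`-part and a part prime to `M`. -/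
theorem exists_Mpart (M : ℕ) : ∀ Z : ℕ, 0 < Z →
    ∃ B y k : ℕ, Z = B * y ∧ B ∣ M ^ k ∧ Nat.Coprime y M := by
  intro Z
  induction Z using Nat.strong_induction_on with
  | _ Z ih =>
    intro hZ
    by_cases hc : Nat.Coprime Z M
    · exact ⟨1, Z, 0, by simp, by simp, hc⟩
    · obtain ⟨r, hr, hrZ, hrM⟩ := Nat.Prime.not_coprime_iff_dvd.mp hc
      obtain ⟨Z', rfl⟩ := hrZ
      have hZ' : 0 < Z' := Nat.pos_of_mul_pos_left hZ |> fun h => by
        rcases Nat.eq_zero_or_pos Z' with h0 | h0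
        · subst h0; simp at hZ
        · exact h0
      have hlt : Z' < r * Z' := by
        have := hr.two_le
        nlinarith
      obtain ⟨B, y, k, hBy, hBk, hy⟩ := ih Z' hlt hZ'
      refine ⟨r * B, y, k + 1, ?_, ?_, hy⟩
      · rw [hBy]; ring
      · rw [pow_succ, mul_comm (M ^ k) M]
        exact Nat.mul_dvd_mul hrM hBk

/-- The auxiliary modulus `M₂` (`= 2 M` for even `M`, `= M` for odd `M`). -/
theorem exists_M2 (M a0 : ℕ) (hM : 0 < M) (haM : a0.Coprime M) :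
    ∃ M2 : ℕ, 0 < M2 ∧ M ∣ M2 ∧ Nat.Coprime a0 M2 ∧
      ∀ h : ℕ, M2 ∣ 2 * (h + 1) → M ∣ h + 1 := by
  rcases Nat.even_or_odd M with hev | hodd
  · refine ⟨2 * M, by positivity, Dvd.intro_left 2 rfl, ?_, ?_⟩
    · have h2 : Nat.Coprime a0 2 := by
        have h2M : 2 ∣ M := hev.two_dvd
        exact Nat.Coprime.coprime_dvd_right h2M haM
      exact Nat.Coprime.mul_right h2 haM
    · intro h hh
      exact (Nat.mul_dvd_mul_iff_left (by norm_num : 0 < 2)).mp hh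
  · refine ⟨M, hM, dvd_rfl, haM, ?_⟩
    intro h hh
    have h2 : Nat.Coprime M 2 := Nat.Coprime.symm (Nat.coprime_two_left.mpr hodd)
    exact h2.dvd_of_dvd_mul_left hh

/-- Dirichlet with two congruence conditions: a prime `l`, as large as we like, with
`l ≡ c mod a0` and `l ≡ -1 mod M2`. -/
theorem exists_prime_two_cond (a0 M2 : ℕ) (ha0 : 0 < a0) (hM2 : 0 < M2) (hcop : Nat.Coprime a0 M2)
    (c : ℤ) (hc : IsCoprime c (a0 : ℤ)) (n : ℕ) :
    ∃ l : ℕ, n < l ∧ l.Prime ∧ (l : ℤ) ≡ c [ZMOD a0] ∧ (M2 : ℤ) ∣ (l : ℤ) + 1 := by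
  have hcop' : IsCoprime (a0 : ℤ) (M2 : ℤ) := Nat.isCoprime_iff_coprime.mpr hcop
  obtain ⟨u, v, huv⟩ := hcop'
  -- u * a0 + v * M2 = 1
  set c' : ℤ := c * (v * M2) + (-1) * (u * a0) with hc'
  have e1 : c' = c + (a0 : ℤ) * (-(u * (c + 1))) := by
    rw [hc']
    have : v * (M2 : ℤ) = 1 - u * a0 := by linarith
    rw [this]; ring
  have e2 : c' = -1 + (M2 : ℤ) * (v * (c + 1)) := by
    rw [hc']
    have : u * (a0 : ℤ) = 1 - v * M2 := by linarith
    rw [this]; ring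
  have hcop1 : IsCoprime c' (a0 : ℤ) := by
    rw [e1]
    exact (IsCoprime.add_mul_left_left_iff).mpr hc
  have hcop2 : IsCoprime c' (M2 : ℤ) := by
    rw [e2]
    exact (IsCoprime.add_mul_left_left_iff).mpr (isCoprime_one_left.neg_left)
  have hcop3 : IsCoprime c' ((a0 * M2 : ℕ) : ℤ) := by
    push_cast
    exact IsCoprime.mul_right hcop1 hcop2
  obtain ⟨l, hnl, hl, hlc⟩ := Nat.forall_exists_prime_gt_and_zmodEq n
    (q := a0 * M2) (a := c') (by positivity) hcop3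
  refine ⟨l, hnl, hl, ?_, ?_⟩
  · have h1 : (l : ℤ) ≡ c' [ZMOD a0] := by
      apply Int.ModEq.of_mul_right (M2 : ℤ)
      simpa using hlc
    refine h1.trans ?_
    rw [e1]
    exact (Int.modEq_iff_dvd.mpr ⟨u * (c + 1), by ring⟩)
  · have h1 : (l : ℤ) ≡ c' [ZMOD M2] := by
      apply Int.ModEq.of_mul_left (a0 : ℤ)
      simpa using hlc
    have h2 := (Int.modEq_iff_dvd.mp h1.symm)
    -- M2 ∣ l - c'
    have : (l : ℤ) + 1 = (l - c') + (M2 : ℤ) * (v * (c + 1)) := by rw [e2]; ring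
    rw [this]
    exact dvd_add h2 (dvd_mul_right _ _)

/-- geometric sum modulo `M` when the ratio is `1` modulo `M`. -/
theorem geom_sum_modEq (M : ℤ) (x : ℤ) (hx : M ∣ x - 1) (n : ℕ) :
    M ∣ (∑ i ∈ Finset.range n, x ^ i) - n := by
  induction n with
  | zero => simp
  | succ n ih =>
    rw [Finset.sum_range_succ]
    have h1 : M ∣ x ^ n - 1 := dvd_trans hx (sub_one_dvd_pow_sub_one x n) |> fun h => h
    have : (∑ i ∈ Finset.range n, x ^ i) + x ^ n - ((n + 1 : ℕ) : ℤ) =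
        ((∑ i ∈ Finset.range n, x ^ i) - n) + (x ^ n - 1) := by
      push_cast; ring
    rw [this]
    exact dvd_add ih h1

/-- **B-AR** (the arithmetic half of centrality (B)). -/
theorem exists_unit_step (q M a0 : ℕ) (b0 : ℤ) (hq : q.Prime) (hM : 0 < M) (hMq : M.Coprime q)
    (ha0 : 0 < a0) (haq : a0.Coprime q) (haM : a0.Coprime M) (hb : IsCoprime b0 (a0 : ℤ)) :
    ∃ (K b' : ℕ) (σ : ℤ), 0 < b' ∧ M ∣ b' ∧ (b' : ℤ) ≡ b0 [ZMOD a0] ∧
      (q : ℤ) ^ K - 1 = a0 * b' * σ ∧ (a0 : ℤ) * σ ≡ 1 [ZMOD M] := by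
  -- Step 1: θ0 = q ^ J ≡ 1 mod a0 M
  set φ0 : ℕ := Nat.totient (a0 * M) with hφ0
  have hφpos : 0 < φ0 := Nat.totient_pos.mpr (Nat.mul_pos ha0 hM)
  set J : ℕ := 2 * φ0 with hJ
  set θ0 : ℕ := q ^ J with hθ0
  have hqcop : Nat.Coprime q (a0 * M) :=
    Nat.Coprime.mul_right haq.symm hMq.symm
  have hθ0mod : θ0 ≡ 1 [MOD a0 * M] := by
    have h1 : q ^ φ0 ≡ 1 [MOD a0 * M] := Nat.ModEq.pow_totient hqcop
    have h2 := h1.pow 2
    rw [← pow_mul, one_pow, mul_comm φ0 2] at h2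
    exact h2
  have hθ0gt : 1 < θ0 := by
    apply Nat.one_lt_pow (by omega) hq.one_lt
  have hqθ0 : q ≤ θ0 := by
    calc q = q ^ 1 := (pow_one q).symm
      _ ≤ q ^ J := Nat.pow_le_pow_right hq.pos (by omega)
  have hdvd0 : a0 * M ∣ θ0 - 1 := (Nat.modEq_iff_dvd' hθ0gt.le).mp hθ0mod.symm
  obtain ⟨Z1, hZ1⟩ := hdvd0
  -- θ0 - 1 = a0 * M * Z1 ; Z0 = M * Z1
  set Z0 : ℕ := M * Z1 with hZ0
  have hθ0eq : θ0 = a0 * Z0 + 1 := by
    have : θ0 - 1 = a0 * Z0 := by rw [hZ1, hZ0]; ring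
    omega
  have hZ0pos : 0 < Z0 := by
    rcases Nat.eq_zero_or_pos Z0 with h0 | h0
    · rw [h0] at hθ0eq; omega
    · exact h0
  -- Step 2: the M-part of Z0
  obtain ⟨B, y0, k, hBy, hBk, hy0⟩ := exists_Mpart M Z0 hZ0pos
  have hBpos : 0 < B := by
    rcases Nat.eq_zero_or_pos B with h0 | h0
    · rw [h0] at hBy; omega
    · exact h0
  have hMB : M ∣ B := by
    have h1 : M ∣ B * y0 := by rw [← hBy]; exact Dvd.intro _ rfl
    exact (Nat.Coprime.symm hy0).dvd_of_dvd_mul_right h1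
  have hBa0 : Nat.Coprime B a0 := by
    have h1 : Nat.Coprime (M ^ k) a0 := Nat.Coprime.pow_left k haM.symm
    exact Nat.Coprime.coprime_dvd_left hBk h1
  -- inverse of B mod a0
  have hBa0' : IsCoprime (B : ℤ) (a0 : ℤ) := Nat.isCoprime_iff_coprime.mpr hBa0
  obtain ⟨Binv, w, hBinv⟩ := hBa0'
  -- Binv * B + w * a0 = 1
  have hBinvcop : IsCoprime Binv (a0 : ℤ) := ⟨B, w, by linarith⟩
  -- Step 3: Dirichlet
  obtain ⟨M2, hM2pos, hMM2, hcopM2, hM2h⟩ := exists_M2 M a0 hM haM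
  obtain ⟨l, hlgt, hl, hlc, hlM2⟩ := exists_prime_two_cond a0 M2 ha0 hM2pos hcopM2
    (b0 * Binv) (IsCoprime.mul_left hb hBinvcop) (θ0 + 2)
  have hl2 : 2 < l := by omega
  have hlodd : Odd l := hl.odd_of_ne_two (by omega)
  obtain ⟨h, hh⟩ := hlodd
  -- l = 2 * h + 1
  have hhpos : 0 < h := by omega
  have hMh : M ∣ h + 1 := by
    apply hM2h
    have : ((M2 : ℤ)) ∣ ((2 * (h + 1) : ℕ) : ℤ) := by
      have e : ((2 * (h + 1) : ℕ) : ℤ) = (l : ℤ) + 1 := by rw [hh]; push_cast; ring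
      rw [e]; exact hlM2
    exact Int.natCast_dvd_natCast.mp this
  have hhM : Nat.Coprime h M := by
    have h1 : Nat.Coprime h (h + 1) := by simp
    exact Nat.Coprime.coprime_dvd_right hMh h1
  have hlM : (M : ℤ) ∣ (l : ℤ) + 1 := dvd_trans (Int.natCast_dvd_natCast.mpr hMM2) hlM2
  have hlMcop : IsCoprime (M : ℤ) (l : ℤ) := by
    obtain ⟨t, ht⟩ := hlM
    exact ⟨t, -1, by linarith⟩
  -- Step 4: the exponent n
  have hecop : IsCoprime ((a0 * y0 * h : ℕ) : ℤ) (M : ℤ) := by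
    apply Nat.isCoprime_iff_coprime.mpr
    exact Nat.Coprime.mul_left (Nat.Coprime.mul_left haM hy0) hhM
  obtain ⟨einv, w', heinv⟩ := hecop
  -- einv * e + w' * M = 1
  set n' : ℕ := ((l * einv) % (M : ℤ)).toNat + M with hn'
  have hn'pos : 0 < n' := by omega
  have hn'mod : (M : ℤ) ∣ (n' : ℤ) - l * einv := by
    have hMne : (M : ℤ) ≠ 0 := by exact_mod_cast hM.ne'
    have h1 : 0 ≤ (l * einv) % (M : ℤ) := Int.emod_nonneg _ hMne
    have h2 : (n' : ℤ) = (l * einv) % (M : ℤ) + M := by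
      rw [hn']; push_cast; rw [Int.toNat_of_nonneg h1]
    rw [h2]
    have h3 : (l * einv) % (M : ℤ) + M - l * einv = (M : ℤ) * (1 - (l * einv) / M) := by
      have := Int.emod_add_mul_ediv (l * einv) (M : ℤ)
      linear_combination this
    rw [h3]
    exact dvd_mul_right _ _
  set n : ℕ := h * n' with hn
  have hnpos : 0 < n := Nat.mul_pos hhpos hn'pos
  have hnmod : (M : ℤ) ∣ (n : ℤ) * a0 * y0 - l := by
    obtain ⟨t, ht⟩ := hn'mod
    have : (n : ℤ) * a0 * y0 - l =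
        (M : ℤ) * (t * (a0 * y0 * h) - l * w') := by
      have e1 : (n : ℤ) = h * n' := by rw [hn]; push_cast; ring
      have e2 : (n' : ℤ) = l * einv + M * t := by linarith
      have e3 : einv * ((a0 : ℤ) * y0 * h) = 1 - w' * M := by
        have := heinv
        push_cast at this
        linarith
      rw [e1, e2]
      linear_combination (l : ℤ) * e3
    rw [this]
    exact dvd_mul_right _ _
  -- Step 5: the geometric sum
  set S : ℤ := ∑ i ∈ Finset.range n, (θ0 : ℤ) ^ i with hS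
  have hgeom : S * ((θ0 : ℤ) - 1) = (θ0 : ℤ) ^ n - 1 := geom_sum_mul _ _
  have hθ0Z : (θ0 : ℤ) - 1 = a0 * (B * y0) := by
    rw [hθ0eq, hBy]; push_cast; ring
  -- l ∣ θ0 ^ n - 1
  have hlθ : (l : ℤ) ∣ (θ0 : ℤ) ^ n - 1 := by
    have hqlcop : IsCoprime (q : ℤ) (l : ℤ) := by
      apply Nat.isCoprime_iff_coprime.mpr
      apply (Nat.coprime_primes hq hl).mpr
      omega
    have h1 : (q : ℤ) ^ (l - 1) ≡ 1 [ZMOD l] := Int.ModEq.pow_card_sub_one_eq_one hl hqlcop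
    have h2 : J * n = (l - 1) * (φ0 * n') := by
      have : l - 1 = 2 * h := by omega
      rw [this, hJ, hn]; ring
    have h3 : (θ0 : ℤ) ^ n = ((q : ℤ) ^ (l - 1)) ^ (φ0 * n') := by
      rw [hθ0]; push_cast
      rw [← pow_mul, ← pow_mul, h2]
    rw [h3]
    have h4 := h1.pow (φ0 * n')
    rw [one_pow] at h4
    exact (Int.modEq_iff_dvd.mp h4.symm)
  have hlS : (l : ℤ) ∣ S := by
    have hlprime : Prime (l : ℤ) := Nat.prime_iff_prime_int.mp hl
    rw [← hgeom] at hlθ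
    rcases hlprime.dvd_or_dvd hlθ with h1 | h1
    · exact h1
    · exfalso
      have h2 : (l : ℤ) ≤ (θ0 : ℤ) - 1 := by
        apply Int.le_of_dvd _ h1
        have : (1 : ℤ) < θ0 := by exact_mod_cast hθ0gt
        linarith
      have h3 : (θ0 : ℤ) + 2 < l := by exact_mod_cast hlgt
      linarith
  obtain ⟨σ', hσ'⟩ := hlS
  -- S = l * σ'
  have hSmod : (M : ℤ) ∣ S - n := by
    apply geom_sum_modEq
    rw [hθ0Z]
    have : (M : ℤ) ∣ (B : ℤ) := Int.natCast_dvd_natCast.mpr hMB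
    exact Dvd.dvd.mul_left (Dvd.dvd.mul_right this _) _
  refine ⟨J * n, B * l, y0 * σ', Nat.mul_pos hBpos hl.pos, Dvd.dvd.mul_right hMB _, ?_, ?_, ?_⟩
  · -- b' ≡ b0 mod a0
    push_cast
    have h1 : (l : ℤ) ≡ b0 * Binv [ZMOD a0] := hlc
    have h2 : (B : ℤ) * l ≡ B * (b0 * Binv) [ZMOD a0] := h1.mul_left _
    refine h2.trans ?_
    apply Int.modEq_iff_dvd.mpr
    refine ⟨w * b0, ?_⟩
    linear_combination (-b0) * hBinv
  · -- q ^ K - 1 = a0 * b' * σ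
    have h1 : (q : ℤ) ^ (J * n) = (θ0 : ℤ) ^ n := by
      rw [hθ0]; push_cast; rw [pow_mul]
    rw [h1, ← hgeom, hσ', hθ0Z]
    push_cast
    ring
  · -- a0 * σ ≡ 1 mod M
    apply Int.modEq_iff_dvd.mpr
    -- M ∣ 1 - a0 * (y0 * σ')
    have h1 : (M : ℤ) ∣ (l : ℤ) * (1 - a0 * (y0 * σ')) := by
      have e : (l : ℤ) * (1 - a0 * (y0 * σ')) =
          - ((n : ℤ) * a0 * y0 - l) - (a0 * y0) * (S - n) := by
        rw [hσ']; ring
      rw [e]
      exact dvd_sub (Dvd.dvd.neg_right hnmod) (Dvd.dvd.mul_left hSmod _)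
    exact hlMcop.dvd_of_dvd_mul_left h1

end Fermat.Agent.LIhB
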