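import Fermat.Agent.L.Ihara.Defs

/-!
# Cluster L, IHARA, piece B-GEN: `SL₂(ℤ[1/q])` is generated by the elementary matrices

`closure_upper_lower q : Subgroup.closure {u(t), l(t)} = ⊤` in `Gq q = SL₂(ℤ[1/q])`.
Proof: every element of `ℤ[1/q]` is a unit times an integer; Euclid on the integer parts of the
first column; Whitehead's formula for `diag(u, 1/u)`.
-/

set_option autoImplicit false

noncomputable section

namespace Fermat.Agent.LIh

open Matrix
open scoped MatrixGroups

/-- The subgroup of `SL₂(ℤ[1/q])` generated by the elementary matrices. -/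
def elemGen (q : ℕ) : Subgroup (Gq q) :=
  Subgroup.closure {g : Gq q | ∃ t, g = upper q t ∨ g = lower q t}

theorem upper_mem_elemGen (q : ℕ) (t : Zq q) : upper q t ∈ elemGen q :=
  Subgroup.subset_closure ⟨t, Or.inl rfl⟩

theorem lower_mem_elemGen (q : ℕ) (t : Zq q) : lower q t ∈ elemGen q :=
  Subgroup.subset_closure ⟨t, Or.inr rfl⟩

@[simp] theorem gen_upper_coe (q : ℕ) (t : Zq q) :
    ((upper q t : Gq q) : Matrix (Fin 2) (Fin 2) (Zq q)) = !![1, t; 0, 1] := rfl

@[simp] theorem gen_lower_coe (q : ℕ) (t : Zq q) :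
    ((lower q t : Gq q) : Matrix (Fin 2) (Fin 2) (Zq q)) = !![1, 0; t, 1] := rfl

theorem gen_upper_mul_apply (q : ℕ) (s : Zq q) (g : Gq q) :
    (upper q s * g) 0 0 = g 0 0 + s * g 1 0 ∧ (upper q s * g) 1 0 = g 1 0 := by
  constructor <;>
  · rw [Matrix.SpecialLinearGroup.coe_mul, Matrix.mul_apply, Fin.sum_univ_two]
    simp

theorem gen_lower_mul_apply (q : ℕ) (s : Zq q) (g : Gq q) :
    (lower q s * g) 0 0 = g 0 0 ∧ (lower q s * g) 1 0 = g 1 0 + s * g 0 0 := by
  constructor
  · rw [Matrix.SpecialLinearGroup.coe_mul, Matrix.mul_apply, Fin.sum_univ_two]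
    simp
  · rw [Matrix.SpecialLinearGroup.coe_mul, Matrix.mul_apply, Fin.sum_univ_two]
    simp
    ring

theorem gen_mem_of_upper_mul (q : ℕ) (s : Zq q) (g : Gq q) (h : upper q s * g ∈ elemGen q) :
    g ∈ elemGen q := by
  have := (elemGen q).mul_mem ((elemGen q).inv_mem (upper_mem_elemGen q s)) h
  rwa [inv_mul_cancel_left] at this

theorem gen_mem_of_lower_mul (q : ℕ) (s : Zq q) (g : Gq q) (h : lower q s * g ∈ elemGen q) :
    g ∈ elemGen q := by
  have := (elemGen q).mul_mem ((elemGen q).inv_mem (lower_mem_elemGen q s)) h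
  rwa [inv_mul_cancel_left] at this

/-- Whitehead: a matrix with lower left entry `0` is a product of elementary matrices. -/
theorem gen_mem_of_col_zero (q : ℕ) (g : Gq q) (h : g 1 0 = 0) : g ∈ elemGen q := by
  have hdet : g 0 0 * g 1 1 - g 0 1 * g 1 0 = 1 := by
    have := g.2
    rwa [Matrix.det_fin_two] at this
  rw [h, mul_zero, sub_zero] at hdet
  set a := g 0 0 with ha
  set d := g 1 1 with hd
  set b := g 0 1 with hb
  have hg : g = lower q (-d) * upper q (a - 1) * lower q 1 * upper q (-(a - 1) * d) *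
      upper q (b * d) := by
    apply Subtype.ext
    simp only [Matrix.SpecialLinearGroup.coe_mul, gen_upper_coe, gen_lower_coe]
    ext i j
    fin_cases i <;> fin_cases j
    · simp only [Matrix.mul_apply, Fin.sum_univ_two, Fin.zero_eta, Fin.isValue, Matrix.of_apply,
        Matrix.cons_val', Matrix.cons_val_zero, Matrix.cons_val_fin_one, Matrix.cons_val_one]
      rw [← ha]
      ring
    · simp only [Matrix.mul_apply, Fin.sum_univ_two, Fin.zero_eta, Fin.mk_one, Fin.isValue,
        Matrix.of_apply, Matrix.cons_val', Matrix.cons_val_zero, Matrix.cons_val_fin_one,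
        Matrix.cons_val_one]
      rw [← hb]
      linear_combination (a - 1 - b) * hdet
    · simp only [Matrix.mul_apply, Fin.sum_univ_two, Fin.zero_eta, Fin.mk_one, Fin.isValue,
        Matrix.of_apply, Matrix.cons_val', Matrix.cons_val_zero, Matrix.cons_val_fin_one,
        Matrix.cons_val_one]
      rw [h]
      linear_combination (1 : Zq q) * hdet
    · simp only [Matrix.mul_apply, Fin.sum_univ_two, Fin.mk_one, Fin.isValue, Matrix.of_apply,
        Matrix.cons_val', Matrix.cons_val_zero, Matrix.cons_val_fin_one, Matrix.cons_val_one]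
      rw [← hd]
      linear_combination (1 + b * d - d * (a - 1)) * hdet
  rw [hg]
  exact (elemGen q).mul_mem ((elemGen q).mul_mem ((elemGen q).mul_mem ((elemGen q).mul_mem
    (lower_mem_elemGen q _) (upper_mem_elemGen q _)) (lower_mem_elemGen q _))
    (upper_mem_elemGen q _)) (upper_mem_elemGen q _)

/-- Every element of `ℤ[1/q]` is a unit times an integer. -/
theorem gen_exists_unit_mul_int (q : ℕ) (x : Zq q) :
    ∃ (u : (Zq q)ˣ) (m : ℤ), x = (u : Zq q) * (m : Zq q) := by
  obtain ⟨n, a, h⟩ := IsLocalization.Away.surj (q : ℤ) x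
  have hu : IsUnit (algebraMap ℤ (Zq q) (q : ℤ)) := IsLocalization.Away.algebraMap_isUnit (q : ℤ)
  refine ⟨(hu.unit ^ n)⁻¹, a, ?_⟩
  have h1 : x * ((hu.unit ^ n : (Zq q)ˣ) : Zq q) = (a : Zq q) := by
    rw [Units.val_pow_eq_pow_val, IsUnit.unit_spec]
    simpa using h
  rw [← h1]
  rw [mul_comm x, ← mul_assoc, Units.inv_mul, one_mul]

/-- Euclid on the first column. -/
theorem gen_mem_of_col (q : ℕ) : ∀ (n : ℕ) (g : Gq q),
    (∃ (m k : ℤ) (u v : (Zq q)ˣ), g 0 0 = (u : Zq q) * (m : Zq q) ∧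
      g 1 0 = (v : Zq q) * (k : Zq q) ∧ m.natAbs + k.natAbs ≤ n) → g ∈ elemGen q := by
  intro n
  induction n using Nat.strong_induction_on with
  | _ n ih =>
    rintro g ⟨m, k, u, v, hm, hk, hn⟩
    have hv : ((v⁻¹ : (Zq q)ˣ) : Zq q) * (v : Zq q) = 1 := Units.inv_mul v
    have hu : ((u⁻¹ : (Zq q)ˣ) : Zq q) * (u : Zq q) = 1 := Units.inv_mul u
    by_cases hk0 : k = 0
    · apply gen_mem_of_col_zero
      rw [hk, hk0]
      simp
    by_cases hm0 : m = 0
    · apply gen_mem_of_upper_mul q 1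
      apply gen_mem_of_lower_mul q (-1)
      apply gen_mem_of_col_zero
      rw [(gen_lower_mul_apply q _ _).2, (gen_upper_mul_apply q _ _).1,
        (gen_upper_mul_apply q _ _).2, hm, hm0]
      simp only [Int.cast_zero, mul_zero, zero_add, one_mul]
      ring
    by_cases hle : k.natAbs ≤ m.natAbs
    · have hdiv : m = k * (m / k) + m % k := (Int.mul_ediv_add_emod m k).symm
      have hr0 : 0 ≤ m % k := Int.emod_nonneg m hk0
      have hr1 : m % k < |k| := Int.emod_lt_abs m hk0
      have hr : (m % k).natAbs < k.natAbs := by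
        rw [Int.abs_eq_natAbs] at hr1
        omega
      have hdiv' : (m : Zq q) = (k : Zq q) * ((m / k : ℤ) : Zq q) + ((m % k : ℤ) : Zq q) := by
        exact_mod_cast congrArg (fun z : ℤ => (z : Zq q)) hdiv
      apply gen_mem_of_upper_mul q (-((u : Zq q) * ((m / k : ℤ) : Zq q) * ((v⁻¹ : (Zq q)ˣ) : Zq q)))
      apply ih ((m % k).natAbs + k.natAbs) (by omega)
      refine ⟨m % k, k, u, v, ?_, ?_, le_rfl⟩
      · rw [(gen_upper_mul_apply q _ _).1, hm, hk]
        linear_combination (u : Zq q) * hdiv' +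
          (-((u : Zq q) * ((m / k : ℤ) : Zq q) * (k : Zq q))) * hv
      · rw [(gen_upper_mul_apply q _ _).2, hk]
    · have hdiv : k = m * (k / m) + k % m := (Int.mul_ediv_add_emod k m).symm
      have hr0 : 0 ≤ k % m := Int.emod_nonneg k hm0
      have hr1 : k % m < |m| := Int.emod_lt_abs k hm0
      have hr : (k % m).natAbs < m.natAbs := by
        rw [Int.abs_eq_natAbs] at hr1
        omega
      have hdiv' : (k : Zq q) = (m : Zq q) * ((k / m : ℤ) : Zq q) + ((k % m : ℤ) : Zq q) := by
        exact_mod_cast congrArg (fun z : ℤ => (z : Zq q)) hdiv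
      apply gen_mem_of_lower_mul q (-((v : Zq q) * ((k / m : ℤ) : Zq q) * ((u⁻¹ : (Zq q)ˣ) : Zq q)))
      apply ih (m.natAbs + (k % m).natAbs) (by omega)
      refine ⟨m, k % m, u, v, ?_, ?_, le_rfl⟩
      · rw [(gen_lower_mul_apply q _ _).1, hm]
      · rw [(gen_lower_mul_apply q _ _).2, hm, hk]
        linear_combination (v : Zq q) * hdiv' +
          (-((v : Zq q) * ((k / m : ℤ) : Zq q) * (m : Zq q))) * hu

/-- `SL₂(ℤ[1/q])` is generated by the elementary matrices `u(t)`, `l(t)` (any `q`). -/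
theorem closure_upper_lower_all (q : ℕ) :
    Subgroup.closure {g : Gq q | ∃ t, g = upper q t ∨ g = lower q t} = ⊤ := by
  rw [eq_top_iff]
  intro g _
  obtain ⟨u, m, hm⟩ := gen_exists_unit_mul_int q (g 0 0)
  obtain ⟨v, k, hk⟩ := gen_exists_unit_mul_int q (g 1 0)
  exact gen_mem_of_col q _ g ⟨m, k, u, v, hm, hk, le_rfl⟩

/-- **B-GEN**: `SL₂(ℤ[1/q])` is generated by the elementary matrices `u(t)`, `l(t)`. -/
theorem closure_upper_lower (q : ℕ) (_hq : q.Prime) :
    Subgroup.closure {g : Gq q | ∃ t, g = upper q t ∨ g = lower q t} = ⊤ :=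
  closure_upper_lower_all q

/-- Induction principle: a property of `SL₂(ℤ[1/q])` which holds at `1` and is stable under left
multiplication by `u(t)` and `l(t)` holds everywhere. -/
theorem gen_induction (q : ℕ) {P : Gq q → Prop} (h1 : P 1)
    (hu : ∀ (t : Zq q) (g : Gq q), P g → P (upper q t * g))
    (hl : ∀ (t : Zq q) (g : Gq q), P g → P (lower q t * g)) (g : Gq q) : P g := by
  have hg : g ∈ Subgroup.closure {g : Gq q | ∃ t, g = upper q t ∨ g = lower q t} := by
    rw [closure_upper_lower_all]; exact Subgroup.mem_top g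
  have hinvu : ∀ t : Zq q, (upper q t)⁻¹ = upper q (-t) := by
    intro t
    rw [inv_eq_iff_mul_eq_one]
    apply Subtype.ext
    rw [Matrix.SpecialLinearGroup.coe_mul]
    ext i j
    fin_cases i <;> fin_cases j <;> simp [Matrix.mul_apply, Fin.sum_univ_two]
  have hinvl : ∀ t : Zq q, (lower q t)⁻¹ = lower q (-t) := by
    intro t
    rw [inv_eq_iff_mul_eq_one]
    apply Subtype.ext
    rw [Matrix.SpecialLinearGroup.coe_mul]
    ext i j
    fin_cases i <;> fin_cases j <;> simp [Matrix.mul_apply, Fin.sum_univ_two]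
  refine Subgroup.closure_induction_left (p := fun g _ => P g) h1 ?_ ?_ hg
  · rintro x ⟨t, rfl | rfl⟩ y _ hy
    · exact hu t y hy
    · exact hl t y hy
  · rintro x ⟨t, rfl | rfl⟩ y _ hy
    · rw [hinvu]; exact hu (-t) y hy
    · rw [hinvl]; exact hl (-t) y hy

end Fermat.Agent.LIh
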