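/-
Cluster L (S41, level raising), WP IHARA, piece (D'-U) = Lemma U.  Owner: helper64.

Every unipotent element `x` of `G(M) ⊆ SL₂(ℤ[1/q])` (i.e. `(x - 1)² = 0`, equivalently
`tr x = 2`) is of the form `k u(M t) k⁻¹` with `k ∈ SL₂(ℤ)`, `t ∈ ℤ[1/q]`; in particular it lies
in `E(M) = elem q M`.
-/
import Fermat.Agent.L.Ihara.Defs

set_option autoImplicit false

noncomputable section

namespace Fermat.Agent.LIhU

open Matrix Matrix.SpecialLinearGroup Fermat.Agent.LIh
open scoped MatrixGroups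

/-- Integer lemma: a primitive vector proportional to a given integral vector `(a, c)`. -/
theorem exists_coprime_prop (a c : ℤ) :
    ∃ v₁ v₂ g : ℤ, IsCoprime v₁ v₂ ∧
      ((a = 0 ∧ c = 0 ∧ v₁ = 1 ∧ v₂ = 0) ∨ (g ≠ 0 ∧ a = g * v₁ ∧ c = g * v₂)) := by
  by_cases hac : a = 0 ∧ c = 0
  · exact ⟨1, 0, 0, isCoprime_one_left, Or.inl ⟨hac.1, hac.2, rfl, rfl⟩⟩
  · have hg : (Int.gcd a c : ℤ) ≠ 0 := by
      intro h0
      have h0' : Int.gcd a c = 0 := by exact_mod_cast h0
      rw [Int.gcd_eq_zero_iff] at h0'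
      exact hac h0'
    obtain ⟨a', ha'⟩ : (Int.gcd a c : ℤ) ∣ a := Int.gcd_dvd_left a c
    obtain ⟨c', hc'⟩ : (Int.gcd a c : ℤ) ∣ c := Int.gcd_dvd_right a c
    have hcop : IsCoprime a' c' := by
      rw [Int.isCoprime_iff_gcd_eq_one]
      have hpos : 0 < Int.gcd a c := Nat.pos_of_ne_zero (by exact_mod_cast hg)
      have := Int.gcd_div_gcd_div_gcd (i := a) (j := c) hpos
      have e1 : a / (Int.gcd a c : ℤ) = a' := Int.ediv_eq_of_eq_mul_right hg ha'
      have e2 : c / (Int.gcd a c : ℤ) = c' := Int.ediv_eq_of_eq_mul_right hg hc'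
      rwa [e1, e2] at this
    exact ⟨a', c', (Int.gcd a c : ℤ), hcop, Or.inr ⟨hg, ha', hc'⟩⟩

/-- For an element of `SL₂`, `(x - 1)² = 0` forces `tr x = 2`. -/
theorem trace_eq_two_of_sq {R : Type*} [CommRing R] (x : SL(2, R))
    (hu : ((x : Matrix (Fin 2) (Fin 2) R) - 1) ^ 2 = 0) : x 0 0 + x 1 1 = 2 := by
  have hdet : x 0 0 * x 1 1 - x 0 1 * x 1 0 = 1 := by
    have := x.2
    rwa [Matrix.det_fin_two] at this
  have h00 := congrFun (congrFun hu 0) 0
  have h01 := congrFun (congrFun hu 0) 1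
  simp only [pow_two, Matrix.mul_apply, Fin.sum_univ_two, Matrix.sub_apply, Matrix.one_apply_eq,
    Matrix.zero_apply, ne_eq, zero_ne_one, not_false_eq_true, Matrix.one_apply_ne,
    one_ne_zero, sub_zero] at h00 h01
  linear_combination (x 1 1 - (x 0 0 + x 1 1 - 2)) * hdet + x 1 1 * h00 - x 1 0 * h01

/-- Conversely `tr x = 2` forces `(x - 1)² = 0` (Cayley–Hamilton). -/
theorem sq_of_trace_eq_two {R : Type*} [CommRing R] (x : SL(2, R))
    (htr : x 0 0 + x 1 1 = 2) : ((x : Matrix (Fin 2) (Fin 2) R) - 1) ^ 2 = 0 := by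
  have hdet : x 0 0 * x 1 1 - x 0 1 * x 1 0 = 1 := by
    have := x.2
    rwa [Matrix.det_fin_two] at this
  have h11 : x 1 1 = 2 - x 0 0 := by linear_combination htr
  ext i j
  fin_cases i <;> fin_cases j <;>
    simp only [pow_two, Matrix.mul_apply, Fin.sum_univ_two, Matrix.sub_apply, Matrix.one_apply_eq,
      Matrix.zero_apply, ne_eq, zero_ne_one, not_false_eq_true, Matrix.one_apply_ne,
      one_ne_zero, sub_zero, Fin.zero_eta, Fin.mk_one, Fin.isValue]
  · linear_combination (-1 : R) * hdet + (x 0 0) * htr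
  · linear_combination (x 0 1) * htr
  · linear_combination (x 1 0) * htr
  · linear_combination (-1 : R) * hdet + (x 1 1) * htr

/-- `ℤ → ℤ[1/q]` is injective for `q ≠ 0`. -/
theorem algebraMap_Zq_injective {q : ℕ} (hq : q ≠ 0) :
    Function.Injective (algebraMap ℤ (Zq q)) :=
  IsLocalization.injective (Zq q) (M := Submonoid.powers (q : ℤ))
    (powers_le_nonZeroDivisors_of_noZeroDivisors (by exact_mod_cast hq))

/-- `ℤ[1/q]` is a domain for `q ≠ 0`. -/
theorem isDomain_Zq {q : ℕ} (hq : q ≠ 0) : IsDomain (Zq q) :=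
  IsLocalization.isDomain_of_le_nonZeroDivisors (Zq q) (M := Submonoid.powers (q : ℤ))
    (powers_le_nonZeroDivisors_of_noZeroDivisors (by exact_mod_cast hq))

/-- `ℤ[1/0]` is the zero ring. -/
theorem subsingleton_Zq_zero : Subsingleton (Zq 0) := by
  have h := IsLocalization.Away.algebraMap_isUnit (S := Zq 0) (((0 : ℕ) : ℤ))
  simp only [Nat.cast_zero, map_zero, isUnit_zero_iff] at h
  exact subsingleton_of_zero_eq_one h

/-- **Lemma U, shape.**  An element of trace `2` of `SL₂(ℤ[1/q])` is conjugate under `SL₂(ℤ)`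
to an upper unipotent `u(t)`. -/
theorem exists_conj_upper {q : ℕ} (hq : q ≠ 0) (x : Gq q) (htr : x 0 0 + x 1 1 = 2) :
    ∃ (k : SL(2, ℤ)) (t : Zq q), x = iotaZ q k * upper q t * (iotaZ q k)⁻¹ := by
  have : IsDomain (Zq q) := isDomain_Zq hq
  have hinj := algebraMap_Zq_injective hq
  have hdet : x 0 0 * x 1 1 - x 0 1 * x 1 0 = 1 := by
    have := x.2
    rwa [Matrix.det_fin_two] at this
  -- integral multiples of the first column of `x - 1`
  obtain ⟨n, a, ha⟩ := IsLocalization.Away.surj (S := Zq q) (q : ℤ) (x 0 0 - 1)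
  obtain ⟨m, c, hc⟩ := IsLocalization.Away.surj (S := Zq q) (q : ℤ) (x 1 0)
  set Q : Zq q := algebraMap ℤ (Zq q) (q : ℤ) with hQ
  have hQu : IsUnit (Q ^ (n + m)) :=
    (IsLocalization.Away.algebraMap_isUnit (S := Zq q) (q : ℤ)).pow _
  have ha1 : (x 0 0 - 1) * Q ^ (n + m) = algebraMap ℤ (Zq q) (a * (q : ℤ) ^ m) := by
    rw [pow_add, ← mul_assoc, ha, map_mul, map_pow]
  have hc1 : x 1 0 * Q ^ (n + m) = algebraMap ℤ (Zq q) (c * (q : ℤ) ^ n) := by
    rw [pow_add, mul_comm (Q ^ n), ← mul_assoc, hc, map_mul, map_pow]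
  obtain ⟨v₁, v₂, g, hcop, hcase⟩ := exists_coprime_prop (a * (q : ℤ) ^ m) (c * (q : ℤ) ^ n)
  -- the primitive vector `v` is fixed by `x`
  have hv : (x 0 0 - 1) * (v₁ : Zq q) + x 0 1 * (v₂ : Zq q) = 0 ∧
      x 1 0 * (v₁ : Zq q) + (x 1 1 - 1) * (v₂ : Zq q) = 0 := by
    rcases hcase with ⟨h1, h2, h3, h4⟩ | ⟨hg, h1, h2⟩
    · rw [h1, map_zero] at ha1
      rw [h2, map_zero] at hc1
      have e1 : x 0 0 - 1 = 0 := (hQu.mul_left_eq_zero).mp ha1
      have e2 : x 1 0 = 0 := (hQu.mul_left_eq_zero).mp hc1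
      subst h3 h4
      constructor
      · rw [e1]; simp
      · rw [e2]; simp
    · rw [h1] at ha1
      rw [h2] at hc1
      have hg' : (g : Zq q) ≠ 0 := by
        intro h0
        apply hg
        apply hinj
        rw [map_zero]
        simpa using h0
      have ha2 : (x 0 0 - 1) * Q ^ (n + m) = (g : Zq q) * (v₁ : Zq q) := by
        rw [ha1]; simp
      have hc2 : x 1 0 * Q ^ (n + m) = (g : Zq q) * (v₂ : Zq q) := by
        rw [hc1]; simp
      constructor
      · apply (mul_eq_zero.mp (?_ : (g : Zq q) *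
          ((x 0 0 - 1) * (v₁ : Zq q) + x 0 1 * (v₂ : Zq q)) = 0)).resolve_left hg'
        linear_combination (-(x 0 0 - 1)) * ha2 - (x 0 1) * hc2 -
          (Q ^ (n + m)) * hdet + (Q ^ (n + m) * x 0 0) * htr
      · apply (mul_eq_zero.mp (?_ : (g : Zq q) *
          (x 1 0 * (v₁ : Zq q) + (x 1 1 - 1) * (v₂ : Zq q)) = 0)).resolve_left hg'
        linear_combination (-(x 1 0)) * ha2 - (x 1 1 - 1) * hc2 +
          (Q ^ (n + m) * x 1 0) * htr
  obtain ⟨hv1, hv2⟩ := hv
  obtain ⟨r, s, hrs⟩ := hcop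
  have hrs' : (r : Zq q) * (v₁ : Zq q) + (s : Zq q) * (v₂ : Zq q) = 1 := by
    have := congrArg (fun z : ℤ => (z : Zq q)) hrs
    simpa using this
  let k : SL(2, ℤ) := ⟨!![v₁, -s; v₂, r], by
    rw [Matrix.det_fin_two_of]; linear_combination hrs⟩
  have hk00 : (iotaZ q k) 0 0 = (v₁ : Zq q) := by rw [iotaZ_apply]; rfl
  have hk01 : (iotaZ q k) 0 1 = -(s : Zq q) := by
    rw [iotaZ_apply]; show ((-s : ℤ) : Zq q) = _; simp
  have hk10 : (iotaZ q k) 1 0 = (v₂ : Zq q) := by rw [iotaZ_apply]; rfl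
  have hk11 : (iotaZ q k) 1 1 = (r : Zq q) := by rw [iotaZ_apply]; rfl
  set K : Gq q := iotaZ q k with hK
  set y : Gq q := K⁻¹ * x * K with hy
  have hy00 : y 0 0 = 1 := by
    rw [hy, Matrix.SpecialLinearGroup.coe_mul, Matrix.SpecialLinearGroup.coe_mul,
      Matrix.SpecialLinearGroup.coe_inv, Matrix.adjugate_fin_two]
    simp only [Matrix.mul_apply, Fin.sum_univ_two, Matrix.of_apply, Matrix.cons_val',
      Matrix.cons_val_zero, Matrix.cons_val_fin_one, Matrix.cons_val_one, Fin.isValue,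
      hk00, hk01, hk10, hk11]
    linear_combination (r : Zq q) * hv1 + (s : Zq q) * hv2 + hrs'
  have hy10 : y 1 0 = 0 := by
    rw [hy, Matrix.SpecialLinearGroup.coe_mul, Matrix.SpecialLinearGroup.coe_mul,
      Matrix.SpecialLinearGroup.coe_inv, Matrix.adjugate_fin_two]
    simp only [Matrix.mul_apply, Fin.sum_univ_two, Matrix.of_apply, Matrix.cons_val',
      Matrix.cons_val_zero, Matrix.cons_val_fin_one, Matrix.cons_val_one, Fin.isValue,
      hk00, hk01, hk10, hk11]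
    linear_combination (-(v₂ : Zq q)) * hv1 + (v₁ : Zq q) * hv2
  have hydet : y 0 0 * y 1 1 - y 0 1 * y 1 0 = 1 := by
    have := y.2
    rwa [Matrix.det_fin_two] at this
  have hy11 : y 1 1 = 1 := by
    rw [hy00, hy10] at hydet
    linear_combination hydet
  refine ⟨k, y 0 1, ?_⟩
  have hyu : y = upper q (y 0 1) := by
    ext i j
    fin_cases i <;> fin_cases j
    · simpa [upper] using hy00
    · simp [upper]
    · simpa [upper] using hy10
    · simpa [upper] using hy11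
  rw [← hyu, hy, ← hK]
  group

/-- **Lemma U, with the level.**  An element of trace `2` of `G(M) ⊆ SL₂(ℤ[1/q])` is
`k u(M t) k⁻¹` with `k ∈ SL₂(ℤ)`. -/
theorem exists_conj_upper_of_mem_congr {q : ℕ} (hq : q ≠ 0) (M : ℕ) (x : Gq q)
    (hx : x ∈ congr q M) (htr : x 0 0 + x 1 1 = 2) :
    ∃ (k : SL(2, ℤ)) (t : Zq q),
      x = iotaZ q k * upper q ((M : Zq q) * t) * (iotaZ q k)⁻¹ := by
  obtain ⟨k, t, hkt⟩ := exists_conj_upper hq x htr
  have hu : upper q t ∈ congr q M := by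
    have h1 : upper q t = (iotaZ q k)⁻¹ * x * ((iotaZ q k)⁻¹)⁻¹ := by
      rw [hkt]; group
    rw [h1]
    exact (congr_normal q M).conj_mem x hx _
  have h01 := (mem_congr.mp hu) 0 1
  obtain ⟨t', ht'⟩ : (M : Zq q) ∣ t := by
    simpa [upper] using h01
  exact ⟨k, t', by rw [← ht']; exact hkt⟩

/-- **Lemma U** (trace form): an element of trace `2` of `G(M)` lies in `E(M)`. -/
theorem mem_elem_of_trace_eq_two (q M : ℕ) (x : Gq q) (hx : x ∈ congr q M)
    (htr : x 0 0 + x 1 1 = 2) : x ∈ elem q M := by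
  rcases Nat.eq_zero_or_pos q with hq | hq
  · subst hq
    have := subsingleton_Zq_zero
    have : x = 1 := by
      ext i j
      exact Subsingleton.elim _ _
    rw [this]
    exact one_mem _
  · obtain ⟨k, t, hkt⟩ := exists_conj_upper_of_mem_congr hq.ne' M x hx htr
    rw [hkt]
    exact (elem_normal q M).conj_mem _ (Subgroup.subset_normalClosure ⟨t, rfl⟩) _

/-- **Lemma U** (D'-U): a unipotent element (`(x - 1)² = 0`) of `G(M) ⊆ SL₂(ℤ[1/q])` lies in
`E(M)`. -/
theorem lemmaU (q M : ℕ) (x : Gq q) (hx : x ∈ congr q M)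
    (hu : ((x : Matrix (Fin 2) (Fin 2) (Zq q)) - 1) ^ 2 = 0) : x ∈ elem q M :=
  mem_elem_of_trace_eq_two q M x hx (trace_eq_two_of_sq x hu)

end Fermat.Agent.LIhU
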