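import Fermat.Agent.L.Ihara.Assemble
import Fermat.Agent.L.IharaD.Main
import Fermat.Agent.L.Amalgam.Main

/-!
# Cluster L, work package IHARA: Ihara's lemma from Claim E

Architect: helper41.  Everything of IHARA is proved except Claim E (extension of an invariant
character from `G(M ℓ)` to `G(M)`, helper8): `iharaStatement_of_claimE`.

* (A1) glueing: `LAmal.glueStatement` (helper88, helper59)
* (A2)+(A3)+(C)+assembly: `LIhara.iharaStatement_of` (helper59, helper45, helper64, helper15)
* (B) centrality: `LIhB.centralStatement` (helper59, helper15)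
* (D') congruence subgroup property mod `p`: `LIhD.cspStatement_of_claimE` (helper45, helper64)
-/

set_option autoImplicit false

namespace Fermat.Agent.LIh

/-- **Ihara's lemma**, from Claim E. -/
theorem iharaStatement_of_claimE (N q p : ℕ) [NeZero q]
    (hE : ∀ M' ℓ, Fermat.Agent.LIhD.ClaimEStatement q p M' ℓ) :
    Fermat.Agent.L.IharaStatement N q p :=
  Fermat.Agent.LIhara.iharaStatement_of N q p (Fermat.Agent.LAmal.glueStatement N q)
    (Fermat.Agent.LIhD.cspStatement_of_claimE q p (p * N) hE)

end Fermat.Agent.LIh
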